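import Fermat.Agent.LT.T5.H40.HS0Core

/-!
# Row LT, tower T5, leaf T5.02g `CovolOneC` (helper855; registry row 1195)

OFF-MAIN.  `T1.LocCompC K → T1.AddFundDomC K → T5.H40.CovolOneC K`: there is a Haar measure of
the adeles of `K` for which the quotient by the principal adeles has volume `1`.

Proof: take any additive Haar measure `μ` of the locally compact group `𝔸_K`, a fundamental
domain `D` with `0 < μ D < ∞` (`T1.AddFundDomC`) and rescale by `(μ D)⁻¹`; a fundamental domain
stays one for an absolutely continuous measure.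
-/

set_option autoImplicit false
set_option linter.style.haveILetI false

open IsDedekindDomain NumberField MeasureTheory
open scoped MatrixGroups ENNReal

noncomputable section

namespace Fermat.Agent.LT.T5.H855

open Fermat.Agent.LT.H556.A0 Fermat.Agent.LT

variable (K : Type) [Field K] [NumberField K]

/-- **T5.02g.**  A Haar measure of covolume one on the adeles. -/
theorem covolOneC855 (hLC : T1.LocCompC K) (hFD : T1.AddFundDomC K) : T5.H40.CovolOneC K := by
  obtain ⟨⟨hlc, ht2, hsc⟩, -⟩ := hLC
  unfold T5.H40.CovolOneC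
  unfold T1.AddFundDomC at hFD
  letI : MeasurableSpace (Adl K) := borel (Adl K)
  haveI : BorelSpace (Adl K) := ⟨rfl⟩
  haveI := hlc
  haveI := ht2
  haveI := hsc
  obtain ⟨D, -, hD, -, hpos, hfin⟩ := hFD (Measure.addHaar : Measure (Adl K)) inferInstance
  set μ : Measure (Adl K) := Measure.addHaar with hμ
  have hc0 : (μ D)⁻¹ ≠ 0 := ENNReal.inv_ne_zero.2 hfin.ne
  have hct : (μ D)⁻¹ ≠ ∞ := ENNReal.inv_ne_top.2 hpos.ne'
  refine ⟨(μ D)⁻¹ • μ, Measure.IsAddHaarMeasure.smul μ hc0 hct, D, ?_, ?_⟩
  · exact hD.mono (Measure.AbsolutelyContinuous.rfl.smul_left _)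
  · rw [Measure.smul_apply, smul_eq_mul]
    exact ENNReal.inv_mul_cancel hpos.ne' hfin.ne

/-- The leaf in the form of the registry row (VERBATIM). -/
theorem leafCovolOne855 : T1.LocCompC K → T1.AddFundDomC K → T5.H40.CovolOneC K :=
  covolOneC855 K

end Fermat.Agent.LT.T5.H855

end
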